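import Fermat.Agent.Ultra.Place

/-! All places of the bounded part of an ultraproduct of function fields are internal. -/

set_option autoImplicit false

open Filter AlgebraicCurve WithZero Module Polynomial
open scoped IntermediateField.algebraAdjoinAdjoin

namespace Fermat.Agent.Ultra

open Fermat.Agent.RRC

section single

variable {K F : Type*} [Field K] [Field F] [Algebra K F]

theorem exists_fin_sum [RatPlaces K F] (m : ℕ) (D : Divisor K F) (h0 : 0 ≤ D)
    (hD : Divisor.degree D = m) : ∃ p : Fin m → Place K F, D = ∑ j, Finsupp.single (p j) 1 := by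
  classical
  induction m generalizing D with
  | zero =>
    refine ⟨Fin.elim0, ?_⟩
    rw [Finset.univ_eq_empty, Finset.sum_empty]
    exact (eq_of_le_of_degree_eq h0 (by rw [hD, map_zero]; rfl)).symm
  | succ m ih =>
    obtain ⟨v, hv⟩ : ∃ v, D v ≠ 0 := by
      by_contra hcon
      push Not at hcon
      have : D = 0 := Finsupp.ext hcon
      rw [this, map_zero] at hD
      push_cast at hD
      omega
    have hv1 : 1 ≤ D v := by
      have := h0 v
      rw [Finsupp.coe_zero, Pi.zero_apply] at this
      omega
    obtain ⟨p, hp⟩ := ih (D - Finsupp.single v 1) (by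
      intro w
      rw [Finsupp.sub_apply, Finsupp.single_apply]
      split_ifs with h
      · rw [← h]
        simp only [Finsupp.coe_zero, Pi.zero_apply]
        omega
      · have := h0 w
        simpa using this) (by
      rw [map_sub, hD, degree_single']
      push_cast
      ring)
    refine ⟨Fin.cons v p, ?_⟩
    rw [Fin.sum_univ_succ]
    simp only [Fin.cons_zero, Fin.cons_succ]
    rw [← hp]
    abel

/-- pole divisor -/
noncomputable def pd (K : Type*) {F : Type*} [Field K] [Field F] [Algebra K F]
    [HasPrincipalDivisors K F] (f : F) : Divisor K F := (-(div K f)) ⊔ 0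

variable [HasPrincipalDivisors K F]

theorem pd_apply (f : F) (v : Place K F) : pd K f v = max (-v.ord f) 0 := by
  unfold pd
  rw [Finsupp.sup_apply, Finsupp.neg_apply, Finsupp.coe_zero, Pi.zero_apply]
  rcases eq_or_ne f 0 with rfl | hf
  · simp [RRC.div]
  · rw [div_apply hf]

theorem pd_nonneg (f : F) : 0 ≤ pd K f := le_sup_right

theorem pd_le {f : F} {D : Divisor K F} (h0 : 0 ≤ D) (h : f ∈ riemannRochSpace D) : pd K f ≤ D := by
  intro v
  rw [pd_apply]
  have h1 := h0 v
  rw [Finsupp.coe_zero, Pi.zero_apply] at h1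
  rcases mem_riemannRochSpace_iff.mp h v with h2 | h2
  · rw [h2, Place.ord_zero]
    omega
  · omega

theorem mem_L_pd (f : F) : f ∈ riemannRochSpace (pd K f) := by
  rw [mem_riemannRochSpace_iff]
  intro v
  right
  rw [pd_apply]
  omega

theorem hasB_iff [RatPlaces K F] {f : F} {m : ℕ} : HasB K f m ↔ Divisor.degree (pd K f) ≤ m := by
  constructor
  · rintro ⟨D, h0, h1, h2⟩
    exact (degree_mono (pd_le h0 h2)).trans h1
  · intro h
    exact ⟨pd K f, pd_nonneg f, h, mem_L_pd f⟩

end single

variable {I : Type*} {𝒰 : Ultrafilter I} {k : I → Type*} {F : I → Type*}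
  [∀ i, Field (k i)] [∀ i, Field (F i)] [∀ i, Algebra (k i) (F i)] [∀ i, RRC.FF (k i) (F i)]
  {U B : Type*} [Field U] [Field B] [Algebra U B] (d : UData 𝒰 k F U B)
  [CharZero U] [∀ i, IsAlgClosed (k i)] {G : ℕ}

include d

theorem UData.exists_ip_eq (hG : ∀ i, genusFF (k i) (F i) ≤ G) (v : Place U B) :
    ∃ P : ∀ i, Place (k i) (F i), d.ip hG P = v := by
  classical
  by_contra hcon
  push Not at hcon
  have hUcl : IsAlgClosed U := d.toUFam.isAlgClosed
  have hfn := d.isFnField hG
  have hFF : RRC.FF U B := ff_of_isFnField U B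
  obtain ⟨Y, hY⟩ := d.surjB (unif v)⁻¹
  have hord : v.ord (d.mkB Y) = -1 := by rw [hY, v.ord_inv, ord_unif]
  have htr : Transcendental U (d.mkB Y) :=
    Fermat.Agent.FF.transcendental_of_ord_ne_zero v (by rw [hord]; omega)
  -- the pole degree of `Y i`
  obtain ⟨b, hb⟩ := Y.2
  obtain ⟨m, hm⟩ : ∃ m : ℕ, ∀ᶠ i in (𝒰 : Filter I),
      Divisor.degree (pd (k i) (Y.1 i)) = m := by
    obtain ⟨z, hz1, hz2⟩ := exists_const_of_mem 𝒰
      (fun i => Divisor.degree (pd (k i) (Y.1 i))) (Set.finite_Icc (0 : ℤ) b) (by
        filter_upwards [hb] with i hi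
        exact ⟨degree_nonneg (pd_nonneg _), hasB_iff.mp hi⟩)
    obtain ⟨m, rfl⟩ := Int.eq_ofNat_of_zero_le hz1.1
    exact ⟨m, hz2⟩
  obtain ⟨-, hle⟩ := finrank_le d (x := Y) (m := m) (by
    filter_upwards [hm] with i hi
    exact hasB_iff.mpr hi.le) htr
  have hdeg := Fermat.Agent.RR.degree_poleDiv (K := U) htr
  -- the families of poles
  have hp : ∀ i, ∃ p : Fin m → Place (k i) (F i),
      Divisor.degree (pd (k i) (Y.1 i)) = m → pd (k i) (Y.1 i) = ∑ j, Finsupp.single (p j) 1 := by
    intro i
    by_cases h : Divisor.degree (pd (k i) (Y.1 i)) = m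
    · obtain ⟨p, hp⟩ := exists_fin_sum m _ (pd_nonneg _) h
      exact ⟨p, fun _ => hp⟩
    · exact ⟨fun _ => Classical.choice instNonemptyPlace, fun h' => absurd h' h⟩
  choose p hp using hp
  set w : Fin m → Place U B := fun j => d.ip hG (fun i => p i j) with hw
  have hle2 : Finsupp.single v 1 + ∑ j, Finsupp.single (w j) (1 : ℤ) ≤
      Fermat.Agent.RR.poleDiv (K := U) (d.mkB Y) := by
    intro u
    rw [Finsupp.add_apply, Finsupp.finsetSum_apply, Fermat.Agent.RR.poleDiv_apply]
    simp only [Finsupp.single_apply]
    rw [Finset.sum_boole]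
    by_cases huv : v = u
    · have h1 : (Finset.univ.filter fun j => w j = u) = ∅ := by
        rw [Finset.filter_eq_empty_iff]
        intro j _ hj
        exact hcon _ (hj.trans huv.symm)
      rw [if_pos huv, h1, ← huv, hord]
      simp
    · rw [if_neg huv, zero_add]
      by_cases hu : ∃ j₀, w j₀ = u
      · obtain ⟨j₀, rfl⟩ := hu
        obtain ⟨n, hn⟩ := exists_ord_const (fun i => p i j₀) Y
        have hn' : (w j₀).ord (d.mkB Y) = n := (d.ord_ip hG _).mpr hn
        have hj : ∀ᶠ i in (𝒰 : Filter I), ∀ j, (w j = w j₀ → p i j = p i j₀) := by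
          rw [eventually_all]
          intro j
          by_cases h : w j = w j₀
          · filter_upwards [(d.ip_eq_iff hG).mp h] with i hi using fun _ => hi
          · exact Eventually.of_forall fun i h' => absurd h' h
        obtain ⟨i, h1, h2, h3⟩ := (hn.and (hm.and hj)).exists
        rw [hn', ← h1]
        have h4 := congrArg (fun D : Divisor (k i) (F i) => D (p i j₀)) (hp i h2)
        rw [pd_apply, Finsupp.finsetSum_apply] at h4
        simp only [Finsupp.single_apply] at h4
        rw [Finset.sum_boole] at h4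
        rw [max_comm, h4]
        have : (Finset.univ.filter fun j => w j = w j₀) ⊆
            (Finset.univ.filter fun j => p i j = p i j₀) := by
          intro j hj
          rw [Finset.mem_filter] at hj ⊢
          exact ⟨hj.1, h3 j hj.2⟩
        exact_mod_cast Finset.card_le_card this
      · push Not at hu
        have h1 : (Finset.univ.filter fun j => w j = u) = ∅ := by
          rw [Finset.filter_eq_empty_iff]
          intro j _ hj
          exact hu j hj
        rw [h1]
        simp
  have h5 := degree_mono hle2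
  rw [map_add, map_sum, degree_single', hdeg] at h5
  simp only [degree_single'] at h5
  rw [Finset.sum_const, Finset.card_univ, Fintype.card_fin, nsmul_eq_mul, mul_one] at h5
  have h6 : (finrank (IntermediateField.adjoin U {d.mkB Y}) B : ℤ) ≤ m := by exact_mod_cast hle
  omega

end Fermat.Agent.Ultra
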