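import Fermat.Agent.Ultra.Spec

/-! Comparison of torsion in `Pic0`. -/

set_option autoImplicit false

open Filter AlgebraicCurve WithZero Module Polynomial

namespace Fermat.Agent.Ultra

open Fermat.Agent.RRC

theorem pic0_mk_eq_iff {K F : Type*} [Field K] [Field F] [Algebra K F]
    {D E : Divisor.degZero (K := K) (F := F)} :
    Pic0.mk D = Pic0.mk E ↔ Divisor.IsPrincipal ((D : Divisor K F) - (E : Divisor K F)) := by
  rw [← sub_eq_zero]
  show (QuotientAddGroup.mk D : Pic0 K F) - QuotientAddGroup.mk E = 0 ↔ _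
  rw [← QuotientAddGroup.mk_sub, QuotientAddGroup.eq_zero_iff, AddSubgroup.mem_addSubgroupOf]
  rfl

/-- classes are represented by `E - G P` with `E` effective of degree `G ≥ g` -/
theorem exists_fin_rep {K F : Type*} [Field K] [Field F] [Algebra K F] [RRC.FF K F] {G : ℕ}
    (hG : genusFF K F ≤ G) (P : Place K F) (D : Divisor.degZero (K := K) (F := F)) :
    ∃ p : Fin G → Place K F,
      Divisor.IsPrincipal (((∑ j, Finsupp.single (p j) 1) - Finsupp.single P (G : ℤ)) -
        (D : Divisor K F)) := by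
  have hD : Divisor.degree (D : Divisor K F) = 0 := D.2
  have h1 := riemann_inequality ((D : Divisor K F) + Finsupp.single P (G : ℤ))
  rw [map_add, hD, degree_single'] at h1
  have h2 : 0 < finrank K (riemannRochSpace ((D : Divisor K F) + Finsupp.single P (G : ℤ))) := by
    omega
  have h3 : Nontrivial (riemannRochSpace ((D : Divisor K F) + Finsupp.single P (G : ℤ))) :=
    Module.finrank_pos_iff.mp h2
  obtain ⟨f, hf⟩ := exists_ne (0 : riemannRochSpace ((D : Divisor K F) + Finsupp.single P (G : ℤ)))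
  have hf0 : (f : F) ≠ 0 := fun h0 => hf (Subtype.ext h0)
  have h4 := (mem_L_iff hf0).mp f.2
  obtain ⟨p, hp⟩ := exists_fin_sum G _ h4 (by
    rw [map_add, map_add, degree_div, hD, degree_single']; ring)
  refine ⟨p, ?_⟩
  rw [← hp]
  have : div K (f : F) + ((D : Divisor K F) + Finsupp.single P (G : ℤ)) -
      Finsupp.single P (G : ℤ) - (D : Divisor K F) = div K (f : F) := by abel
  rw [this]
  exact isPrincipal_div hf0

variable {I : Type*} {𝒰 : Ultrafilter I} {k : I → Type*} {F : I → Type*}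
  [∀ i, Field (k i)] [∀ i, Field (F i)] [∀ i, Algebra (k i) (F i)] [∀ i, RRC.FF (k i) (F i)]
  {U B : Type*} [Field U] [Field B] [Algebra U B] (d : UData 𝒰 k F U B)
  [CharZero U] [∀ i, IsAlgClosed (k i)] {G : ℕ} [RRC.FF U B]

/-- specialization on degree zero divisors -/
noncomputable def UData.specZ (hG : ∀ i, genusFF (k i) (F i) ≤ G) (i : I)
    (D : Divisor.degZero (K := U) (F := B)) : Divisor.degZero (K := k i) (F := F i) :=
  ⟨d.spec hG i D, by
    rw [Divisor.mem_degZero, d.degree_spec]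
    exact D.2⟩

/-- the class `x` is the limit of the classes `c i` -/
def UData.Lim (hG : ∀ i, genusFF (k i) (F i) ≤ G) (c : ∀ i, Pic0 (k i) (F i)) (x : Pic0 U B) :
    Prop :=
  ∃ D : Divisor.degZero (K := U) (F := B), Pic0.mk D = x ∧
    ∀ᶠ i in (𝒰 : Filter I), Pic0.mk (d.specZ hG i D) = c i

theorem UData.exists_lim (hG : ∀ i, genusFF (k i) (F i) ≤ G) (c : ∀ i, Pic0 (k i) (F i)) :
    ∃ x, d.Lim hG c x := by
  obtain ⟨v₀⟩ := instNonemptyPlace (K := U) (F := B)
  choose D hD using fun i => Pic0.mk_surjective (c i)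
  choose p hp using fun i => exists_fin_rep (hG i) (d.rep hG v₀ i) (D i)
  set E : Divisor U B := (∑ j, Finsupp.single (d.ip hG (fun i => p i j)) (1 : ℤ)) -
    Finsupp.single v₀ (G : ℤ) with hE
  have hE0 : E ∈ Divisor.degZero (K := U) (F := B) := by
    rw [Divisor.mem_degZero, hE, map_sub, map_sum]
    simp only [degree_single']
    simp
  refine ⟨Pic0.mk ⟨E, hE0⟩, ⟨E, hE0⟩, rfl, ?_⟩
  have h1 : ∀ᶠ i in (𝒰 : Filter I), ∀ j, d.rep hG (d.ip hG (fun i => p i j)) i = p i j := by
    rw [eventually_all]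
    intro j
    exact d.rep_ip hG _
  filter_upwards [h1] with i hi
  rw [← hD, pic0_mk_eq_iff]
  show Divisor.IsPrincipal (d.spec hG i E - _)
  rw [hE, map_sub, map_sum, d.spec_single]
  simp only [d.spec_single, hi]
  exact hp i

theorem UData.lim_iff (hG : ∀ i, genusFF (k i) (F i) ≤ G) {c c' : ∀ i, Pic0 (k i) (F i)}
    {x x' : Pic0 U B} (h : d.Lim hG c x) (h' : d.Lim hG c' x') :
    x = x' ↔ ∀ᶠ i in (𝒰 : Filter I), c i = c' i := by
  obtain ⟨D, rfl, hD⟩ := h
  obtain ⟨D', rfl, hD'⟩ := h'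
  rw [pic0_mk_eq_iff]
  have h1 : (∀ᶠ i in (𝒰 : Filter I), c i = c' i) ↔ ∀ᶠ i in (𝒰 : Filter I),
      Divisor.IsPrincipal (d.spec hG i ((D : Divisor U B) - D')) := by
    apply eventually_congr
    filter_upwards [hD, hD'] with i h1 h2
    rw [← h1, ← h2, pic0_mk_eq_iff, map_sub]
    rfl
  rw [h1, isPrincipal_iff]
  constructor
  · rintro ⟨g, hg0, hg⟩
    obtain ⟨f, rfl⟩ := d.surjB g
    have h2 := (d.div_eq_iff hG hg0).mp hg.symm
    filter_upwards [h2, d.neB_iff.mp hg0] with i h3 h4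
    rw [← h3]
    exact isPrincipal_div h4
  · intro h2
    have hex : ∀ i, ∃ f : F i, Divisor.IsPrincipal (d.spec hG i ((D : Divisor U B) - D')) →
        f ≠ 0 ∧ div (k i) f = d.spec hG i ((D : Divisor U B) - D') := by
      intro i
      by_cases hi : Divisor.IsPrincipal (d.spec hG i ((D : Divisor U B) - D'))
      · obtain ⟨f, hf1, hf2⟩ := isPrincipal_iff.mp hi
        exact ⟨f, fun _ => ⟨hf1, hf2.symm⟩⟩
      · exact ⟨0, fun h' => absurd h' hi⟩
    choose f hf using hex
    have hfB : f ∈ Bdd 𝒰 k F := by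
      apply d.bdd_of_mem hG (D := -((D : Divisor U B) - D'))
      filter_upwards [h2] with i hi
      obtain ⟨h3, h4⟩ := hf i hi
      rw [map_neg]
      exact ((div_eq_iff_mem h3).mp h4).1
    have hne : d.mkB ⟨f, hfB⟩ ≠ 0 := by
      rw [d.neB_iff]
      filter_upwards [h2] with i hi using (hf i hi).1
    refine ⟨d.mkB ⟨f, hfB⟩, hne, ?_⟩
    symm
    rw [d.div_eq_iff hG hne]
    filter_upwards [h2] with i hi using (hf i hi).2

theorem UData.lim_nsmul (hG : ∀ i, genusFF (k i) (F i) ≤ G) {c : ∀ i, Pic0 (k i) (F i)}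
    {x : Pic0 U B} (h : d.Lim hG c x) (n : ℤ) : d.Lim hG (fun i => n • c i) (n • x) := by
  obtain ⟨D, rfl, hD⟩ := h
  refine ⟨n • D, rfl, ?_⟩
  filter_upwards [hD] with i hi
  rw [← hi]
  show _ = Pic0.mk (n • d.specZ hG i D)
  congr 1
  apply Subtype.ext
  show d.spec hG i (n • (D : Divisor U B)) = n • d.spec hG i (D : Divisor U B)
  rw [map_zsmul]

theorem UData.lim_zero (hG : ∀ i, genusFF (k i) (F i) ≤ G) : d.Lim hG (fun _ => 0) 0 := by
  refine ⟨0, rfl, Eventually.of_forall fun i => ?_⟩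
  have : d.specZ hG i 0 = 0 := Subtype.ext (map_zero (d.spec hG i))
  rw [this, Pic0.mk_zero]

include d in
/-- **transfer of torsion counts** -/
theorem UData.card_torsion (hG : ∀ i, genusFF (k i) (F i) ≤ G) {n N : ℕ} (hN : N ≠ 0)
    (h : ∀ᶠ i in (𝒰 : Filter I), Nat.card (Pic0.torsion (k i) (F i) n) = N) :
    Nat.card (Pic0.torsion U B n) = N := by
  classical
  have he : ∀ i, ∃ e : Fin N → Pic0 (k i) (F i),
      (Nat.card (Pic0.torsion (k i) (F i) n) = N → Function.Injective e ∧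
        ∀ c, c ∈ Pic0.torsion (k i) (F i) n ↔ ∃ j, e j = c) := by
    intro i
    by_cases hi : Nat.card (Pic0.torsion (k i) (F i) n) = N
    · have hfin : Finite (Pic0.torsion (k i) (F i) n) := Nat.finite_of_card_ne_zero (by omega)
      let e := (Finite.equivFinOfCardEq hi).symm
      refine ⟨fun j => (e j).1, fun _ => ⟨?_, ?_⟩⟩
      · intro a b hab
        exact e.injective (Subtype.ext hab)
      · intro c
        constructor
        · intro hc
          exact ⟨e.symm ⟨c, hc⟩, by simp⟩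
        · rintro ⟨j, rfl⟩
          exact (e j).2
    · exact ⟨fun _ => 0, fun h' => absurd h' hi⟩
  choose e he using he
  choose x hx using fun j : Fin N => d.exists_lim hG (fun i => e i j)
  have hxt : ∀ j, x j ∈ Pic0.torsion U B n := by
    intro j
    rw [Pic0.mem_torsion]
    rw [d.lim_iff hG (d.lim_nsmul hG (hx j) n) (d.lim_zero hG)]
    filter_upwards [h] with i hi
    exact Pic0.mem_torsion.mp (((he i hi).2 _).mpr ⟨j, rfl⟩)
  have hbij : Function.Bijective (fun j => (⟨x j, hxt j⟩ : Pic0.torsion U B n)) := by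
    constructor
    · intro a b hab
      have h1 : x a = x b := congrArg Subtype.val hab
      rw [d.lim_iff hG (hx a) (hx b)] at h1
      obtain ⟨i, h2, h3⟩ := (h1.and h).exists
      exact (he i h3).1 h2
    · rintro ⟨y, hy⟩
      obtain ⟨D, hD⟩ := Pic0.mk_surjective y
      set c : ∀ i, Pic0 (k i) (F i) := fun i => Pic0.mk (d.specZ hG i D) with hc
      have hcy : d.Lim hG c y := ⟨D, hD, Eventually.of_forall fun _ => rfl⟩
      have h1 := d.lim_nsmul hG hcy n
      rw [Pic0.mem_torsion.mp hy] at h1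
      have h2 := (d.lim_iff hG h1 (d.lim_zero hG)).mp rfl
      have h3 : ∀ i, ∃ j : Fin N, (Nat.card (Pic0.torsion (k i) (F i) n) = N →
          (n : ℤ) • c i = 0 → e i j = c i) := by
        intro i
        by_cases hi : Nat.card (Pic0.torsion (k i) (F i) n) = N ∧ (n : ℤ) • c i = 0
        · obtain ⟨j, hj⟩ := ((he i hi.1).2 (c i)).mp (Pic0.mem_torsion.mpr hi.2)
          exact ⟨j, fun _ _ => hj⟩
        · exact ⟨⟨0, Nat.pos_of_ne_zero hN⟩, fun h1 h2 => absurd ⟨h1, h2⟩ hi⟩
      choose J hJ using h3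
      obtain ⟨j, hj⟩ := exists_const 𝒰 J
      refine ⟨j, Subtype.ext ?_⟩
      show x j = y
      rw [d.lim_iff hG (hx j) hcy]
      filter_upwards [hj, h, h2] with i h4 h5 h6
      rw [← h4]
      exact hJ i h5 h6
  rw [← Nat.card_congr (Equiv.ofBijective _ hbij), Nat.card_eq_fintype_card, Fintype.card_fin]

end Fermat.Agent.Ultra
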