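import Fermat.Agent.RRC.Duality

/-! Ultraproducts of fields. -/

set_option autoImplicit false

open Filter Polynomial

namespace Fermat.Agent.Ultra

variable {I : Type*} (𝒰 : Ultrafilter I)

/-- the ideal of families which vanish almost everywhere -/
def nullI (R : I → Type*) [∀ i, CommRing (R i)] : Ideal (∀ i, R i) where
  carrier := {a | ∀ᶠ i in (𝒰 : Filter I), a i = 0}
  zero_mem' := Eventually.of_forall fun _ => rfl
  add_mem' := by
    intro a b ha hb
    filter_upwards [ha, hb] with i h1 h2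
    rw [Pi.add_apply, h1, h2, add_zero]
  smul_mem' := by
    intro c a ha
    filter_upwards [ha] with i h1
    rw [Pi.smul_apply', h1, smul_zero]

theorem mem_nullI {R : I → Type*} [∀ i, CommRing (R i)] {a : ∀ i, R i} :
    a ∈ nullI 𝒰 R ↔ ∀ᶠ i in (𝒰 : Filter I), a i = 0 := Iff.rfl

instance isMaximal_nullI (R : I → Type*) [∀ i, Field (R i)] : (nullI 𝒰 R).IsMaximal := by
  rw [Ideal.isMaximal_iff]
  refine ⟨?_, ?_⟩
  · intro h
    rw [mem_nullI] at h
    simp only [Pi.one_apply, one_ne_zero, eventually_false_iff_eq_bot] at h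
    exact NeBot.ne inferInstance h
  · intro J a hJ ha haJ
    rw [mem_nullI] at ha
    have ha' : ∀ᶠ i in (𝒰 : Filter I), a i ≠ 0 := Ultrafilter.eventually_not.mpr ha
    have h1 : (1 : ∀ i, R i) - (fun i => (a i)⁻¹) * a ∈ nullI 𝒰 R := by
      rw [mem_nullI]
      filter_upwards [ha'] with i hi
      simp [hi]
    have h2 := J.add_mem (hJ h1) (J.mul_mem_left (fun i => (a i)⁻¹) haJ)
    simpa using h2

/-- `U` is the ultraproduct of the fields `R i` -/
structure UFam (R : I → Type*) [∀ i, Field (R i)] (U : Type*) [Field U] where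
  mkU : (∀ i, R i) →+* U
  surj : Function.Surjective mkU
  zero_iff : ∀ a, mkU a = 0 ↔ ∀ᶠ i in (𝒰 : Filter I), a i = 0

variable {𝒰} in
theorem UFam.eq_iff {R : I → Type*} [∀ i, Field (R i)] {U : Type*} [Field U] (d : UFam 𝒰 R U)
    {a b : ∀ i, R i} : d.mkU a = d.mkU b ↔ ∀ᶠ i in (𝒰 : Filter I), a i = b i := by
  rw [← sub_eq_zero, ← map_sub, d.zero_iff]
  simp only [Pi.sub_apply, sub_eq_zero]

variable {𝒰} in
theorem UFam.ne_zero_iff {R : I → Type*} [∀ i, Field (R i)] {U : Type*} [Field U]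
    (d : UFam 𝒰 R U) {a : ∀ i, R i} : d.mkU a ≠ 0 ↔ ∀ᶠ i in (𝒰 : Filter I), a i ≠ 0 := by
  rw [Ne, d.zero_iff, ← Ultrafilter.eventually_not]

/-- the ultraproduct exists -/
theorem exists_UFam.{u, v} {I : Type u} (𝒰 : Ultrafilter I) (R : I → Type v) [∀ i, Field (R i)] :
    ∃ (U : Type (max u v)) (_ : Field U), Nonempty (UFam 𝒰 R U) := by
  let hU : Field ((∀ i, R i) ⧸ nullI 𝒰 R) := Ideal.Quotient.field _
  refine ⟨(∀ i, R i) ⧸ nullI 𝒰 R, hU, ⟨?_⟩⟩
  exact { mkU := Ideal.Quotient.mk (nullI 𝒰 R)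
          surj := Ideal.Quotient.mk_surjective
          zero_iff := fun _ => Ideal.Quotient.eq_zero_iff_mem.trans (mem_nullI 𝒰) }

/-- `𝒰`-almost everywhere constancy for families with values in a finite set -/
theorem exists_const {α : Type*} [Finite α] (f : I → α) :
    ∃ a : α, ∀ᶠ i in (𝒰 : Filter I), f i = a := by
  by_contra hcon
  push Not at hcon
  have h : ∀ a : α, ∀ᶠ i in (𝒰 : Filter I), f i ≠ a := hcon
  have h2 := eventually_all.mpr h
  obtain ⟨i, hi⟩ := h2.exists
  exact hi (f i) rfl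

theorem exists_const_of_mem {α : Type*} (f : I → α) {s : Set α} (hs : s.Finite)
    (h : ∀ᶠ i in (𝒰 : Filter I), f i ∈ s) : ∃ a ∈ s, ∀ᶠ i in (𝒰 : Filter I), f i = a := by
  classical
  obtain ⟨i₀, hi₀⟩ := h.exists
  have : Finite s := hs
  obtain ⟨a, ha⟩ := exists_const 𝒰 (fun i => if hi : f i ∈ s then (⟨f i, hi⟩ : s) else ⟨f i₀, hi₀⟩)
  refine ⟨a.1, a.2, ?_⟩
  filter_upwards [h, ha] with i h1 h2
  rw [dif_pos h1] at h2
  rw [← h2]

theorem UFam.isAlgClosed {R : I → Type*} [∀ i, Field (R i)] [∀ i, IsAlgClosed (R i)]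
    {U : Type*} [Field U] (d : UFam 𝒰 R U) : IsAlgClosed U := by
  apply IsAlgClosed.of_exists_root
  intro p hp hirr
  have hdeg : 0 < p.natDegree := hirr.natDegree_pos
  set n := p.natDegree with hn
  choose a ha using fun j => d.surj (p.coeff j)
  have hroot : ∀ i : I, ∃ r : R i, r ^ n + ∑ j ∈ Finset.range n, a j i * r ^ j = 0 := by
    intro i
    have hlt : (∑ j ∈ Finset.range n, C (a j i) * X ^ j : (R i)[X]).degree <
        (X ^ n : (R i)[X]).degree := by
      rw [degree_X_pow]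
      refine (degree_sum_le _ _).trans_lt ?_
      rw [Finset.sup_lt_iff (by exact_mod_cast WithBot.bot_lt_coe n)]
      intro j hj
      refine (degree_C_mul_X_pow_le _ _).trans_lt ?_
      exact_mod_cast Finset.mem_range.mp hj
    obtain ⟨r, hr⟩ := IsAlgClosed.exists_root
      (X ^ n + ∑ j ∈ Finset.range n, C (a j i) * X ^ j : (R i)[X]) (by
        rw [degree_add_eq_left_of_degree_lt hlt, degree_X_pow]
        exact_mod_cast hdeg.ne')
    refine ⟨r, ?_⟩
    rw [IsRoot.def] at hr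
    simpa [eval_finsetSum] using hr
  choose r hr using hroot
  refine ⟨d.mkU r, ?_⟩
  rw [eval_eq_sum_range, ← hn, Finset.sum_range_succ, hp.coeff_natDegree, one_mul]
  simp only [← ha]
  rw [← map_pow]
  have : ∀ j ∈ Finset.range n, d.mkU (a j) * d.mkU r ^ j = d.mkU (a j * r ^ j) := by
    intro j _
    rw [map_mul, map_pow]
  rw [Finset.sum_congr rfl this, ← map_sum, ← map_add, d.zero_iff]
  refine Eventually.of_forall fun i => ?_
  simp only [Pi.add_apply, Finset.sum_apply, Pi.mul_apply, Pi.pow_apply]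
  rw [add_comm]
  exact hr i

end Fermat.Agent.Ultra
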