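import Fermat.Agent.Ultra.Basic

/-! Functions of bounded degree; the bounded part of an ultraproduct of function fields. -/

set_option autoImplicit false

open Filter AlgebraicCurve WithZero Module

namespace Fermat.Agent.Ultra

open Fermat.Agent.RRC

section hasB

variable (K : Type*) {F : Type*} [Field K] [Field F] [Algebra K F]

/-- `f` lies in `L(D)` for an effective divisor of degree at most `B` -/
def HasB (f : F) (B : ℕ) : Prop :=
  ∃ D : Divisor K F, 0 ≤ D ∧ Divisor.degree D ≤ B ∧ f ∈ riemannRochSpace D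

variable {K}

theorem HasB.mono {f : F} {B C : ℕ} (h : HasB K f B) (hBC : B ≤ C) : HasB K f C := by
  obtain ⟨D, h1, h2, h3⟩ := h
  exact ⟨D, h1, h2.trans (by exact_mod_cast hBC), h3⟩

variable (K) in
theorem hasB_algebraMap (a : K) : HasB K (algebraMap K F a) 0 := by
  refine ⟨0, le_rfl, by simp, ?_⟩
  intro v
  simpa using v.adicValuation_algebraMap_le_one a

variable (K) in
theorem hasB_zero : HasB K (0 : F) 0 := by
  have := hasB_algebraMap K (F := F) 0
  rwa [map_zero] at this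

variable (K) in
theorem hasB_one : HasB K (1 : F) 0 := by
  have := hasB_algebraMap K (F := F) 1
  rwa [map_one] at this

theorem HasB.neg {f : F} {B : ℕ} (h : HasB K f B) : HasB K (-f) B := by
  obtain ⟨D, h1, h2, h3⟩ := h
  exact ⟨D, h1, h2, Submodule.neg_mem _ h3⟩

theorem HasB.add {f g : F} {B C : ℕ} (h : HasB K f B) (h' : HasB K g C) :
    HasB K (f + g) (B + C) := by
  obtain ⟨D, h1, h2, h3⟩ := h
  obtain ⟨E, h4, h5, h6⟩ := h'
  refine ⟨D + E, add_nonneg h1 h4, ?_, Submodule.add_mem _ (riemannRochSpace_mono ?_ h3)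
    (riemannRochSpace_mono ?_ h6)⟩
  · rw [map_add]; push_cast; exact add_le_add h2 h5
  · exact le_add_of_nonneg_right h4
  · exact le_add_of_nonneg_left h1

theorem mul_mem_L_add {D E : Divisor K F} {f g : F} (hf : f ∈ riemannRochSpace D)
    (hg : g ∈ riemannRochSpace E) : f * g ∈ riemannRochSpace (D + E) := by
  intro v
  rw [Finsupp.add_apply, exp_add, map_mul]
  exact mul_le_mul' (hf v) (hg v)

theorem HasB.mul {f g : F} {B C : ℕ} (h : HasB K f B) (h' : HasB K g C) :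
    HasB K (f * g) (B + C) := by
  obtain ⟨D, h1, h2, h3⟩ := h
  obtain ⟨E, h4, h5, h6⟩ := h'
  refine ⟨D + E, add_nonneg h1 h4, ?_, mul_mem_L_add h3 h6⟩
  rw [map_add]; push_cast; exact add_le_add h2 h5

theorem HasB.inv [HasPrincipalDivisors K F] {f : F} {B : ℕ} (h : HasB K f B) :
    HasB K f⁻¹ B := by
  rcases eq_or_ne f 0 with rfl | hf
  · rw [inv_zero]; exact (hasB_zero K).mono (Nat.zero_le _)
  obtain ⟨D, h1, h2, h3⟩ := h
  refine ⟨div K f + D, (mem_L_iff hf).mp h3, ?_, ?_⟩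
  · rw [map_add, degree_div, zero_add]; exact h2
  · rw [mem_L_iff (inv_ne_zero hf), RRC.div_inv]
    simpa using h1

variable [RatPlaces K F]

theorem apply_le_degree {D : Divisor K F} (h0 : 0 ≤ D) (v : Place K F) :
    D v ≤ Divisor.degree D := by
  classical
  have h1 : Finsupp.single v (D v) ≤ D := by
    intro u
    rw [Finsupp.single_apply]
    split_ifs with h
    · rw [h]
    · exact h0 u
  have := degree_mono h1
  rwa [degree_single'] at this

theorem HasB.ord_ge {f : F} {B : ℕ} (h : HasB K f B) (v : Place K F) : -(B : ℤ) ≤ v.ord f := by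
  obtain ⟨D, h1, h2, h3⟩ := h
  rcases mem_riemannRochSpace_iff.mp h3 v with h | h
  · rw [h, Place.ord_zero]; omega
  · have := apply_le_degree h1 v
    omega

theorem HasB.ord_le [HasPrincipalDivisors K F] {f : F} {B : ℕ} (h : HasB K f B)
    (v : Place K F) : v.ord f ≤ B := by
  have := h.inv.ord_ge v
  rw [v.ord_inv] at this
  omega

end hasB

variable {I : Type*} (𝒰 : Ultrafilter I) (k : I → Type*) (F : I → Type*)
  [∀ i, Field (k i)] [∀ i, Field (F i)] [∀ i, Algebra (k i) (F i)]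

/-- families of functions of bounded degree -/
def Bdd : Subring (∀ i, F i) where
  carrier := {f | ∃ B : ℕ, ∀ᶠ i in (𝒰 : Filter I), HasB (k i) (f i) B}
  zero_mem' := ⟨0, Eventually.of_forall fun i => hasB_zero (k i)⟩
  one_mem' := ⟨0, Eventually.of_forall fun i => hasB_one (k i)⟩
  add_mem' := by
    rintro a b ⟨B, hB⟩ ⟨C, hC⟩
    refine ⟨B + C, ?_⟩
    filter_upwards [hB, hC] with i h1 h2 using h1.add h2
  neg_mem' := by
    rintro a ⟨B, hB⟩
    refine ⟨B, ?_⟩
    filter_upwards [hB] with i h1 using h1.neg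
  mul_mem' := by
    rintro a b ⟨B, hB⟩ ⟨C, hC⟩
    refine ⟨B + C, ?_⟩
    filter_upwards [hB, hC] with i h1 h2 using h1.mul h2

theorem mem_Bdd {f : ∀ i, F i} :
    f ∈ Bdd 𝒰 k F ↔ ∃ B : ℕ, ∀ᶠ i in (𝒰 : Filter I), HasB (k i) (f i) B := Iff.rfl

/-- the ideal of a.e. zero families -/
def nullB : Ideal (Bdd 𝒰 k F) := (nullI 𝒰 F).comap (Bdd 𝒰 k F).subtype

theorem mem_nullB {f : Bdd 𝒰 k F} : f ∈ nullB 𝒰 k F ↔ ∀ᶠ i in (𝒰 : Filter I), f.1 i = 0 := Iff.rfl

/-- constants -/
def constHom : (∀ i, k i) →+* Bdd 𝒰 k F where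
  toFun c := ⟨fun i => algebraMap (k i) (F i) (c i), 0,
    Eventually.of_forall fun i => hasB_algebraMap (k i) _⟩
  map_one' := Subtype.ext (funext fun _ => map_one _)
  map_mul' _ _ := Subtype.ext (funext fun _ => map_mul _ _ _)
  map_zero' := Subtype.ext (funext fun _ => map_zero _)
  map_add' _ _ := Subtype.ext (funext fun _ => map_add _ _ _)

theorem coe_constHom (c : ∀ i, k i) (i : I) :
    (constHom 𝒰 k F c).1 i = algebraMap (k i) (F i) (c i) := rfl

variable [∀ i, HasPrincipalDivisors (k i) (F i)]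

variable {𝒰 k F} in
/-- pointwise inverse of a bounded family -/
noncomputable def invB (f : Bdd 𝒰 k F) : Bdd 𝒰 k F := ⟨fun i => (f.1 i)⁻¹, by
  obtain ⟨B, hB⟩ := f.2
  refine ⟨B, ?_⟩
  filter_upwards [hB] with i hi using hi.inv⟩

instance isMaximal_nullB : (nullB 𝒰 k F).IsMaximal := by
  rw [Ideal.isMaximal_iff]
  refine ⟨?_, ?_⟩
  · intro h
    rw [mem_nullB] at h
    simp only [OneMemClass.coe_one, Pi.one_apply, one_ne_zero,
      eventually_false_iff_eq_bot] at h
    exact NeBot.ne inferInstance h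
  · intro J a hJ ha haJ
    rw [mem_nullB] at ha
    have ha' : ∀ᶠ i in (𝒰 : Filter I), a.1 i ≠ 0 := Ultrafilter.eventually_not.mpr ha
    have h1 : (1 : Bdd 𝒰 k F) - invB a * a ∈ nullB 𝒰 k F := by
      rw [mem_nullB]
      filter_upwards [ha'] with i hi
      show 1 - (a.1 i)⁻¹ * a.1 i = 0
      rw [inv_mul_cancel₀ hi, sub_self]
    have h2 := J.add_mem (hJ h1) (J.mul_mem_left (invB a) haJ)
    simpa using h2

/-- `B` is the bounded part of the ultraproduct of the `F i`, over the ultraproduct `U` of the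
`k i` -/
structure UData (U B : Type*) [Field U] [Field B] [Algebra U B] extends UFam 𝒰 k U where
  mkB : Bdd 𝒰 k F →+* B
  surjB : Function.Surjective mkB
  zeroB_iff : ∀ f, mkB f = 0 ↔ ∀ᶠ i in (𝒰 : Filter I), f.1 i = 0
  comm : ∀ c, algebraMap U B (mkU c) = mkB (constHom 𝒰 k F c)

variable {𝒰 k F} {U B : Type*} [Field U] [Field B] [Algebra U B] (d : UData 𝒰 k F U B)

include d

omit [∀ i, HasPrincipalDivisors (k i) (F i)] in
theorem UData.eqB_iff {f g : Bdd 𝒰 k F} :
    d.mkB f = d.mkB g ↔ ∀ᶠ i in (𝒰 : Filter I), f.1 i = g.1 i := by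
  rw [← sub_eq_zero, ← map_sub, d.zeroB_iff]
  simp only [AddSubgroupClass.coe_sub, Pi.sub_apply, sub_eq_zero]

omit [∀ i, HasPrincipalDivisors (k i) (F i)] in
theorem UData.neB_iff {f : Bdd 𝒰 k F} :
    d.mkB f ≠ 0 ↔ ∀ᶠ i in (𝒰 : Filter I), f.1 i ≠ 0 := by
  rw [Ne, d.zeroB_iff, ← Ultrafilter.eventually_not]

theorem UData.mkB_inv (f : Bdd 𝒰 k F) : d.mkB (invB f) = (d.mkB f)⁻¹ := by
  rcases eq_or_ne (d.mkB f) 0 with h | h
  · rw [h, inv_zero, d.zeroB_iff]
    rw [d.zeroB_iff] at h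
    filter_upwards [h] with i hi
    show (f.1 i)⁻¹ = 0
    rw [hi, inv_zero]
  · apply eq_inv_of_mul_eq_one_left
    rw [← map_mul, ← map_one d.mkB, d.eqB_iff]
    rw [d.neB_iff] at h
    filter_upwards [h] with i hi
    show (f.1 i)⁻¹ * f.1 i = 1
    rw [inv_mul_cancel₀ hi]

end Fermat.Agent.Ultra

namespace Fermat.Agent.Ultra

open Fermat.Agent.RRC

/-- existence of the ultraproduct data -/
theorem exists_UData.{u, v, w} {I : Type u} (𝒰 : Ultrafilter I) (k : I → Type v) (F : I → Type w)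
    [∀ i, Field (k i)] [∀ i, Field (F i)] [∀ i, Algebra (k i) (F i)]
    [∀ i, HasPrincipalDivisors (k i) (F i)] :
    ∃ (U : Type (max u v)) (B : Type (max u w)) (_ : Field U) (_ : Field B)
    (_ : Algebra U B), Nonempty (UData 𝒰 k F U B) := by
  let hU : Field ((∀ i, k i) ⧸ nullI 𝒰 k) := Ideal.Quotient.field _
  let hB : Field (Bdd 𝒰 k F ⧸ nullB 𝒰 k F) := Ideal.Quotient.field _
  let f : ((∀ i, k i) ⧸ nullI 𝒰 k) →+* (Bdd 𝒰 k F ⧸ nullB 𝒰 k F) :=
    Ideal.Quotient.lift (nullI 𝒰 k) ((Ideal.Quotient.mk (nullB 𝒰 k F)).comp (constHom 𝒰 k F)) (by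
      intro c hc
      rw [mem_nullI] at hc
      rw [RingHom.comp_apply, Ideal.Quotient.eq_zero_iff_mem, mem_nullB]
      filter_upwards [hc] with i hi
      rw [coe_constHom, hi, map_zero])
  let hA : Algebra ((∀ i, k i) ⧸ nullI 𝒰 k) (Bdd 𝒰 k F ⧸ nullB 𝒰 k F) := f.toAlgebra
  refine ⟨_, _, hU, hB, hA, ⟨?_⟩⟩
  exact
    { mkU := Ideal.Quotient.mk (nullI 𝒰 k)
      surj := Ideal.Quotient.mk_surjective
      zero_iff := fun _ => Ideal.Quotient.eq_zero_iff_mem.trans (mem_nullI 𝒰)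
      mkB := Ideal.Quotient.mk (nullB 𝒰 k F)
      surjB := Ideal.Quotient.mk_surjective
      zeroB_iff := fun _ => Ideal.Quotient.eq_zero_iff_mem.trans (mem_nullB 𝒰 k F)
      comm := fun _ => rfl }

end Fermat.Agent.Ultra
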