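import Fermat.Agent.Ultra.Bdd
import Fermat.Agent.RRC.Bridge

/-! The bounded part of an ultraproduct of function fields is a function field. -/

set_option autoImplicit false

open Filter AlgebraicCurve WithZero Module Polynomial
open scoped IntermediateField.algebraAdjoinAdjoin

namespace Fermat.Agent.Ultra

open Fermat.Agent.RRC

section single

variable {K F : Type*} [Field K] [Field F] [Algebra K F]

theorem hasB_family {n : ℕ} {h : Fin n → F} {B : ℕ} (hh : ∀ j, HasB K (h j) B) :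
    ∃ E : Divisor K F, 0 ≤ E ∧ Divisor.degree E ≤ (n * B : ℕ) ∧ ∀ j, h j ∈ riemannRochSpace E := by
  choose E h1 h2 h3 using hh
  refine ⟨∑ j, E j, Finset.sum_nonneg fun j _ => h1 j, ?_, fun j => ?_⟩
  · rw [map_sum]
    calc ∑ j, Divisor.degree (E j) ≤ ∑ _j : Fin n, (B : ℤ) := Finset.sum_le_sum fun j _ => h2 j
      _ = ((n * B : ℕ) : ℤ) := by simp
  · exact riemannRochSpace_mono
      (Finset.single_le_sum (fun i _ => h1 i) (Finset.mem_univ j)) (h3 j)

theorem pow_mem_L {D : Divisor K F} {x : F} (hx : x ∈ riemannRochSpace D) (a : ℕ) :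
    x ^ a ∈ riemannRochSpace (a • D) := by
  induction a with
  | zero =>
    rw [pow_zero, zero_smul]
    intro v
    simp
  | succ a ih =>
    rw [pow_succ, succ_nsmul]
    exact mul_mem_L_add ih hx

variable [RRC.FF K F]

theorem exists_relation {x : F} {m : ℕ} (hx : HasB K x m) {h : Fin (m + 1) → F} {B : ℕ}
    (hh : ∀ j, HasB K (h j) B) :
    ∃ c : Fin ((m + 1) * B + 2) × Fin (m + 1) → K,
      ∑ y, c y • (x ^ (y.1 : ℕ) * h y.2) = 0 ∧ ∃ y, c y ≠ 0 := by
  obtain ⟨D, hD0, hDdeg, hxD⟩ := hx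
  obtain ⟨E, hE0, hEdeg, hhE⟩ := hasB_family hh
  set B' := (m + 1) * B with hB'
  set W : Divisor K F := (B' + 1) • D + E with hW
  have hmem : ∀ y : Fin (B' + 2) × Fin (m + 1), x ^ (y.1 : ℕ) * h y.2 ∈ riemannRochSpace W := by
    intro y
    have h1 : (y.1 : ℕ) • D ≤ (B' + 1) • D :=
      nsmul_le_nsmul_left hD0 (by have := y.1.isLt; omega)
    exact mul_mem_L_add (riemannRochSpace_mono h1 (pow_mem_L hxD _)) (hhE _)
  set v : Fin (B' + 2) × Fin (m + 1) → riemannRochSpace W := fun y => ⟨_, hmem y⟩ with hv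
  have hnot : ¬ LinearIndependent K v := by
    intro hli
    have h1 := hli.fintype_card_le_finrank
    rw [Fintype.card_prod, Fintype.card_fin, Fintype.card_fin] at h1
    have h2 := finrank_L_le W
    have h3 : Divisor.degree W ≤ (B' + 1) * m + B' := by
      rw [hW, map_add, map_nsmul, nsmul_eq_mul]
      have : ((B' + 1 : ℕ) : ℤ) * Divisor.degree D ≤ (B' + 1 : ℕ) * m :=
        mul_le_mul_of_nonneg_left hDdeg (by positivity)
      push_cast at this ⊢
      linarith
    have h4 : (finrank K (riemannRochSpace W) : ℤ) ≤ (B' + 1) * m + B' + 1 := by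
      refine h2.trans (max_le (by positivity) (by linarith))
    have h5 : ((B' + 2) * (m + 1) : ℤ) ≤ (B' + 1) * m + B' + 1 := by
      have : (((B' + 2) * (m + 1) : ℕ) : ℤ) ≤ (finrank K (riemannRochSpace W) : ℤ) := by
        exact_mod_cast h1
      push_cast at this
      linarith
    nlinarith
  rw [Fintype.not_linearIndependent_iff] at hnot
  obtain ⟨c, hc, y, hy⟩ := hnot
  refine ⟨c, ?_, y, hy⟩
  have := congrArg Subtype.val hc
  simpa [hv] using this

end single

variable {I : Type*} (𝒰 : Ultrafilter I) (k : I → Type*) (F : I → Type*)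
  [∀ i, Field (k i)] [∀ i, Field (F i)] [∀ i, Algebra (k i) (F i)] [∀ i, RRC.FF (k i) (F i)]

variable {𝒰 k F} {U B : Type*} [Field U] [Field B] [Algebra U B] (d : UData 𝒰 k F U B)

include d

theorem exists_relation_BF {x : Bdd 𝒰 k F} {m : ℕ}
    (hx : ∀ᶠ i in (𝒰 : Filter I), HasB (k i) (x.1 i) m) (h : Fin (m + 1) → B) :
    ∃ p : Fin (m + 1) → U[X], (∑ j, aeval (d.mkB x) (p j) * h j = 0) ∧
      ∃ j, p j ≠ 0 := by
  classical
  choose h' hh' using fun j => d.surjB (h j)
  -- common bound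
  obtain ⟨b, hB⟩ : ∃ b : ℕ, ∀ᶠ i in (𝒰 : Filter I), ∀ j, HasB (k i) ((h' j).1 i) b := by
    choose b hB using fun j => (h' j).2
    refine ⟨∑ j, b j, ?_⟩
    rw [eventually_all]
    intro j
    filter_upwards [hB j] with i hi
    exact hi.mono (Finset.single_le_sum (fun _ _ => Nat.zero_le _) (Finset.mem_univ j))
  set N := (m + 1) * b + 2 with hN
  have hc : ∀ i, ∃ c : Fin N × Fin (m + 1) → k i,
      (HasB (k i) (x.1 i) m → (∀ j, HasB (k i) ((h' j).1 i) b) →
        (∑ y, c y • ((x.1 i) ^ (y.1 : ℕ) * (h' y.2).1 i) = 0 ∧ ∃ y, c y ≠ 0)) := by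
    intro i
    by_cases hi : HasB (k i) (x.1 i) m ∧ (∀ j, HasB (k i) ((h' j).1 i) b)
    · obtain ⟨c, hc1, hc2⟩ := exists_relation hi.1 (h := fun j => (h' j).1 i) hi.2
      exact ⟨c, fun _ _ => ⟨hc1, hc2⟩⟩
    · exact ⟨0, fun h1 h2 => absurd ⟨h1, h2⟩ hi⟩
  choose c hc using hc
  have hc1 : ∀ᶠ i in (𝒰 : Filter I),
      (∑ y, c i y • ((x.1 i) ^ (y.1 : ℕ) * (h' y.2).1 i) = 0 ∧ ∃ y, c i y ≠ 0) := by
    filter_upwards [hx, hB] with i h1 h2 using hc i h1 h2
  -- a nonzero coordinate
  obtain ⟨y₀, hy₀⟩ : ∃ y₀ : Fin N × Fin (m + 1), ∀ᶠ i in (𝒰 : Filter I), c i y₀ ≠ 0 := by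
    by_contra hcon
    push Not at hcon
    have h2 : ∀ᶠ i in (𝒰 : Filter I), ∀ y, c i y = 0 := eventually_all.mpr hcon
    obtain ⟨i, h3, h4, y, h5⟩ := (h2.and hc1).exists
    exact h5 (h3 y)
  refine ⟨fun j => ∑ a : Fin N, C (d.mkU (fun i => c i (a, j))) * X ^ (a : ℕ), ?_, y₀.2, ?_⟩
  · have h1 : ∀ j, aeval (d.mkB x) (∑ a : Fin N, C (d.mkU (fun i => c i (a, j))) *
        X ^ (a : ℕ)) * h j = d.mkB (∑ a : Fin N, constHom 𝒰 k F (fun i => c i (a, j)) *
          x ^ (a : ℕ) * h' j) := by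
      intro j
      rw [← Finset.sum_mul, map_mul, hh', map_sum, map_sum]
      congr 1
      refine Finset.sum_congr rfl fun a _ => ?_
      rw [map_mul, map_mul, aeval_C, map_pow, map_pow, aeval_X, d.comm]
    rw [Finset.sum_congr rfl fun j _ => h1 j, ← map_sum, d.zeroB_iff]
    filter_upwards [hc1] with i hi
    have h2 : ∀ g : Fin (m + 1) → Bdd 𝒰 k F, (∑ j, g j).1 i = ∑ j, (g j).1 i := by
      intro g
      rw [AddSubmonoidClass.coe_finsetSum, Finset.sum_apply]
    have h3 : ∀ g : Fin N → Bdd 𝒰 k F, (∑ j, g j).1 i = ∑ j, (g j).1 i := by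
      intro g
      rw [AddSubmonoidClass.coe_finsetSum, Finset.sum_apply]
    rw [h2]
    simp only [h3]
    rw [← hi.1, Fintype.sum_prod_type_right]
    refine Finset.sum_congr rfl fun j _ => Finset.sum_congr rfl fun a _ => ?_
    show algebraMap (k i) (F i) (c i (a, j)) * (x.1 i) ^ (a : ℕ) * (h' j).1 i = _
    rw [Algebra.smul_def, mul_assoc]
  · intro h0
    have h1 := congrArg (fun q => coeff q (y₀.1 : ℕ)) h0
    simp only [finsetSum_coeff, coeff_C_mul, coeff_X_pow, coeff_zero] at h1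
    rw [Finset.sum_eq_single y₀.1] at h1
    · rw [if_pos rfl, mul_one, d.zero_iff] at h1
      obtain ⟨i, h2, h3⟩ := (h1.and hy₀).exists
      exact h3 h2
    · intro a _ ha
      rw [if_neg (fun h => ha (Fin.ext h.symm)), mul_zero]
    · intro h; exact absurd (Finset.mem_univ _) h

theorem finrank_le {x : Bdd 𝒰 k F} {m : ℕ} (hx : ∀ᶠ i in (𝒰 : Filter I), HasB (k i) (x.1 i) m)
    (htr : Transcendental U (d.mkB x)) :
    FiniteDimensional (IntermediateField.adjoin U {d.mkB x}) B ∧
    finrank (IntermediateField.adjoin U {d.mkB x}) B ≤ m := by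
  set L := IntermediateField.adjoin U {d.mkB x} with hL
  have hdep : ∀ h : Fin (m + 1) → B, ¬ LinearIndependent L h := by
    intro h hli
    obtain ⟨p, hp, j, hj⟩ := exists_relation_BF d hx h
    have hmem : ∀ j, aeval (d.mkB x) (p j) ∈ L := by
      intro j
      exact (IntermediateField.algebra_adjoin_le_adjoin U _)
        (aeval_mem_adjoin_singleton U (d.mkB x))
    rw [Fintype.linearIndependent_iff] at hli
    have h1 := hli (fun j => ⟨_, hmem j⟩) (by
      rw [← hp]
      refine Finset.sum_congr rfl fun j _ => ?_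
      rfl) j
    have h2 : aeval (d.mkB x) (p j) = 0 := congrArg Subtype.val h1
    exact hj ((transcendental_iff_injective.mp htr) (by rw [h2, map_zero]))
  have hrank : Module.rank L B ≤ m := by
    apply rank_le
    intro s hs
    by_contra hcon
    push Not at hcon
    obtain ⟨t, hts, ht⟩ := Finset.exists_subset_card_eq (s := s) (n := m + 1) (by omega)
    have e := (t.equivFinOfCardEq ht).symm
    apply hdep (fun j => ((e j : t) : B))
    have h1 := hs.comp (fun j : Fin (m + 1) => (⟨(e j : B), hts (e j).2⟩ : s)) (by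
      intro a b hab
      exact e.injective (Subtype.ext (congrArg (fun z : s => (z : B)) hab)))
    exact h1
  have hfin : FiniteDimensional L B := by
    rw [FiniteDimensional, ← Module.rank_lt_aleph0_iff]
    exact hrank.trans_lt (Cardinal.natCast_lt_aleph0)
  refine ⟨hfin, ?_⟩
  rw [← Module.finrank_eq_rank] at hrank
  exact_mod_cast hrank

end Fermat.Agent.Ultra
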