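import Fermat.Agent.Ultra.Finite
import Fermat.Agent.FF.Valuations

/-! Internal places of the bounded part of an ultraproduct of function fields. -/

set_option autoImplicit false

open Filter AlgebraicCurve WithZero Module Polynomial
open scoped IntermediateField.algebraAdjoinAdjoin

namespace Fermat.Agent.Ultra

open Fermat.Agent.RRC

theorem mem_vs_iff_ord {K F : Type*} [Field K] [Field F] [Algebra K F] (v : Place K F) {f : F} :
    f ∈ v.toValuationSubring ↔ 0 ≤ v.ord f := Fermat.Agent.FF.mem_iff_ord_nonneg v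

section single

variable {K F : Type*} [Field K] [Field F] [Algebra K F] [RRC.FF K F]

/-- a function with a pole only at `v`, of bounded degree -/
theorem exists_pole_bound (v : Place K F) {G : ℕ} (hG : genusFF K F ≤ G) :
    ∃ f : F, HasB K f (G + 1) ∧ v.ord f < 0 ∧ (∀ a : K, f ≠ algebraMap K F a) ∧
      ∀ w : Place K F, w.ord f < 0 → w = v := by
  have h1 := riemann_inequality (Finsupp.single v (G + 1 : ℤ) : Divisor K F)
  rw [degree_single'] at h1
  have hpos : (0 : Divisor K F) ≤ Finsupp.single v (G + 1 : ℤ) := by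
    intro w
    classical
    rw [Finsupp.single_apply]
    split_ifs
    · simp only [Finsupp.coe_zero, Pi.zero_apply]; omega
    · simp
  have h2 : riemannRochSpace (0 : Divisor K F) <
      riemannRochSpace (Finsupp.single v (G + 1 : ℤ) : Divisor K F) := by
    refine lt_of_le_of_ne (riemannRochSpace_mono hpos) ?_
    intro h
    rw [← h, finrank_L_zero] at h1
    push_cast at h1
    omega
  obtain ⟨f, hf1, hf2⟩ := SetLike.exists_of_lt h2
  have hconst : ∀ a : K, f ≠ algebraMap K F a := fun a ha => hf2 (mem_L_zero_iff.mpr ⟨a, ha⟩)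
  have hf0 : f ≠ 0 := fun h => hconst 0 (by rw [h, map_zero])
  have hne : ∀ w : Place K F, w.ord f < 0 → w = v := by
    intro w hw
    by_contra hcon
    rcases mem_riemannRochSpace_iff.mp hf1 w with h | h
    · exact hf0 h
    · rw [Finsupp.single_eq_of_ne hcon] at h
      omega
  refine ⟨f, ⟨_, hpos, by rw [degree_single']; push_cast; rfl, hf1⟩, ?_, hconst, hne⟩
  by_contra hcon
  apply hf2
  rw [mem_riemannRochSpace_iff]
  intro w
  right
  simp only [Finsupp.coe_zero, Pi.zero_apply, neg_zero]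
  by_contra hw
  exact hcon (hne w (by omega) ▸ (by omega))

/-- a uniformizer of bounded degree -/
theorem exists_unif_bound (v : Place K F) {G : ℕ} (hG : genusFF K F ≤ G) :
    ∃ t : F, HasB K t (4 * G + 3) ∧ v.ord t = 1 := by
  -- elements with exact pole order `n + 1` for `n ≥ 2 G`
  have key : ∀ n : ℕ, 2 * G ≤ n → ∃ f : F, f ∈ riemannRochSpace (Finsupp.single v ((n + 1 : ℕ) : ℤ) :
      Divisor K F) ∧ v.ord f = -((n + 1 : ℕ) : ℤ) ∧ f ≠ 0 := by
    intro n hn
    have h1 := finrank_L_of_large (D := (Finsupp.single v ((n + 1 : ℕ) : ℤ) : Divisor K F))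
      (by rw [degree_single']; push_cast; omega)
    have h2 := finrank_L_of_large (D := (Finsupp.single v ((n : ℕ) : ℤ) : Divisor K F))
      (by rw [degree_single']; omega)
    rw [degree_single'] at h1 h2
    have hle : (Finsupp.single v ((n : ℕ) : ℤ) : Divisor K F) ≤
        Finsupp.single v ((n + 1 : ℕ) : ℤ) := by
      intro w
      classical
      rw [Finsupp.single_apply, Finsupp.single_apply]
      split_ifs
      · push_cast; omega
      · exact le_rfl
    have h3 : riemannRochSpace (Finsupp.single v ((n : ℕ) : ℤ) : Divisor K F) <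
        riemannRochSpace (Finsupp.single v ((n + 1 : ℕ) : ℤ) : Divisor K F) := by
      refine lt_of_le_of_ne (riemannRochSpace_mono hle) ?_
      intro h
      rw [← h, h2] at h1
      push_cast at h1
      omega
    obtain ⟨f, hf1, hf2⟩ := SetLike.exists_of_lt h3
    have hf0 : f ≠ 0 := by
      rintro rfl
      exact hf2 (Submodule.zero_mem _)
    refine ⟨f, hf1, ?_, hf0⟩
    have h4 := (mem_riemannRochSpace_iff.mp hf1 v).resolve_left hf0
    rw [Finsupp.single_eq_same] at h4
    by_contra hcon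
    apply hf2
    rw [mem_riemannRochSpace_iff]
    intro w
    right
    rcases eq_or_ne w v with rfl | hw
    · rw [Finsupp.single_eq_same]
      push_cast at h4 hcon ⊢
      omega
    · have := (mem_riemannRochSpace_iff.mp hf1 w).resolve_left hf0
      rw [Finsupp.single_eq_of_ne hw] at this ⊢
      exact this
  obtain ⟨f, hf1, hf2, hf0⟩ := key (2 * G) le_rfl
  obtain ⟨g, hg1, hg2, hg0⟩ := key (2 * G + 1) (by omega)
  have hB : ∀ n : ℕ, ∀ f : F, f ∈ riemannRochSpace (Finsupp.single v (n : ℤ) : Divisor K F) →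
      HasB K f n := by
    intro n f hf
    refine ⟨_, ?_, ?_, hf⟩
    · intro w
      classical
      rw [Finsupp.single_apply]
      split_ifs <;> simp
    · rw [degree_single']
  refine ⟨f * g⁻¹, ((hB _ f hf1).mul (hB _ g hg1).inv).mono (by omega), ?_⟩
  rw [v.ord_mul hf0 (inv_ne_zero hg0), v.ord_inv, hf2, hg2]
  push_cast
  ring

end single

variable {I : Type*} {𝒰 : Ultrafilter I} {k : I → Type*} {F : I → Type*}
  [∀ i, Field (k i)] [∀ i, Field (F i)] [∀ i, Algebra (k i) (F i)] [∀ i, RRC.FF (k i) (F i)]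
  {U B : Type*} [Field U] [Field B] [Algebra U B] (d : UData 𝒰 k F U B)

include d

omit [∀ i, RRC.FF (k i) (F i)] in
/-- pointwise constants -/
theorem UData.const_iff {f : Bdd 𝒰 k F} : (∃ u : U, d.mkB f = algebraMap U B u) ↔
    ∀ᶠ i in (𝒰 : Filter I), ∃ a : k i, f.1 i = algebraMap (k i) (F i) a := by
  classical
  constructor
  · rintro ⟨u, hu⟩
    obtain ⟨c, rfl⟩ := d.surj u
    rw [d.comm, d.eqB_iff] at hu
    filter_upwards [hu] with i hi using ⟨c i, hi⟩
  · intro h
    have : ∀ i, ∃ c : k i, (∃ a : k i, f.1 i = algebraMap (k i) (F i) a) →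
        f.1 i = algebraMap (k i) (F i) c := by
      intro i
      by_cases hi : ∃ a : k i, f.1 i = algebraMap (k i) (F i) a
      · obtain ⟨a, ha⟩ := hi
        exact ⟨a, fun _ => ha⟩
      · exact ⟨0, fun h => absurd h hi⟩
    choose c hc using this
    refine ⟨d.mkU c, ?_⟩
    rw [d.comm, d.eqB_iff]
    filter_upwards [h] with i hi using hc i hi

omit [∀ i, RRC.FF (k i) (F i)] in
theorem UData.transcendental [∀ i, IsAlgClosed (k i)] {f : Bdd 𝒰 k F}
    (h : ∀ᶠ i in (𝒰 : Filter I), ∀ a : k i, f.1 i ≠ algebraMap (k i) (F i) a) :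
    Transcendental U (d.mkB f) := by
  have : IsAlgClosed U := d.toUFam.isAlgClosed
  intro halg
  obtain ⟨u, hu⟩ := Fermat.Agent.RR.mem_range_of_isAlgebraic halg
  obtain ⟨i, h1, a, h2⟩ := (h.and (d.const_iff.mp ⟨u, hu.symm⟩)).exists
  exact h1 a h2

theorem UData.isFnField [∀ i, IsAlgClosed (k i)] {G : ℕ} (hG : ∀ i, genusFF (k i) (F i) ≤ G) :
    Fermat.Agent.FF.IsFnField U B := by
  have hP : ∀ i, Nonempty (Place (k i) (F i)) := fun i => instNonemptyPlace
  choose f hf1 hf2 hf3 hf4 using fun i => exists_pole_bound (Classical.choice (hP i)) (hG i)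
  set x : Bdd 𝒰 k F := ⟨f, G + 1, Eventually.of_forall hf1⟩ with hx
  have htr : Transcendental U (d.mkB x) := d.transcendental (Eventually.of_forall hf3)
  obtain ⟨h1, -⟩ := finrank_le d (x := x) (Eventually.of_forall hf1) htr
  exact Fermat.Agent.FF.IsFnField.of_finiteDimensional htr

/-- the valuation ring of an internal place -/
def UData.vs (P : ∀ i, Place (k i) (F i)) : ValuationSubring B where
  carrier := {x | ∃ f : Bdd 𝒰 k F, d.mkB f = x ∧
    ∀ᶠ i in (𝒰 : Filter I), f.1 i ∈ (P i).toValuationSubring}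
  mul_mem' := by
    rintro _ _ ⟨f, rfl, hf⟩ ⟨g, rfl, hg⟩
    refine ⟨f * g, map_mul _ _ _, ?_⟩
    filter_upwards [hf, hg] with i h1 h2 using mul_mem h1 h2
  one_mem' := ⟨1, map_one _, Eventually.of_forall fun i => one_mem _⟩
  add_mem' := by
    rintro _ _ ⟨f, rfl, hf⟩ ⟨g, rfl, hg⟩
    refine ⟨f + g, map_add _ _ _, ?_⟩
    filter_upwards [hf, hg] with i h1 h2 using add_mem h1 h2
  zero_mem' := ⟨0, map_zero _, Eventually.of_forall fun i => zero_mem _⟩
  neg_mem' := by
    rintro _ ⟨f, rfl, hf⟩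
    refine ⟨-f, map_neg _ _, ?_⟩
    filter_upwards [hf] with i h1 using neg_mem h1
  mem_or_inv_mem' := by
    intro x
    obtain ⟨f, rfl⟩ := d.surjB x
    by_cases h : ∀ᶠ i in (𝒰 : Filter I), f.1 i ∈ (P i).toValuationSubring
    · exact Or.inl ⟨f, rfl, h⟩
    · right
      refine ⟨invB f, d.mkB_inv f, ?_⟩
      have h' := Ultrafilter.eventually_not.mpr h
      filter_upwards [h'] with i hi
      exact ((P i).toValuationSubring.mem_or_inv_mem (f.1 i)).resolve_left hi

theorem UData.mem_vs {P : ∀ i, Place (k i) (F i)} {f : Bdd 𝒰 k F} :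
    d.mkB f ∈ d.vs P ↔ ∀ᶠ i in (𝒰 : Filter I), f.1 i ∈ (P i).toValuationSubring := by
  constructor
  · rintro ⟨g, hg, h⟩
    rw [d.eqB_iff] at hg
    filter_upwards [hg, h] with i h1 h2
    rwa [← h1]
  · intro h
    exact ⟨f, rfl, h⟩

omit d in
/-- integral powers of a bounded family -/
noncomputable def zpowB (f : Bdd 𝒰 k F) (n : ℤ) : Bdd 𝒰 k F :=
  if 0 ≤ n then f ^ n.toNat else invB f ^ (-n).toNat

omit d in
theorem coe_zpowB (f : Bdd 𝒰 k F) (n : ℤ) (i : I) : (zpowB f n).1 i = (f.1 i) ^ n := by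
  unfold zpowB
  split_ifs with h
  · lift n to ℕ using h
    rw [Int.toNat_natCast, zpow_natCast]
    rfl
  · obtain ⟨m, hm⟩ : ∃ m : ℕ, n = -(m : ℤ) := ⟨(-n).toNat, by omega⟩
    rw [hm, neg_neg, Int.toNat_natCast, zpow_neg, zpow_natCast, ← inv_pow]
    rfl

theorem UData.mkB_zpow (f : Bdd 𝒰 k F) (n : ℤ) : d.mkB (zpowB f n) = (d.mkB f) ^ n := by
  unfold zpowB
  split_ifs with h
  · lift n to ℕ using h
    rw [Int.toNat_natCast, zpow_natCast, map_pow]
  · obtain ⟨m, hm⟩ : ∃ m : ℕ, n = -(m : ℤ) := ⟨(-n).toNat, by omega⟩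
    rw [hm, neg_neg, Int.toNat_natCast, zpow_neg, zpow_natCast, ← inv_pow, map_pow, d.mkB_inv]

omit d in
/-- almost everywhere values of `ord` -/
theorem exists_ord_const (P : ∀ i, Place (k i) (F i)) (f : Bdd 𝒰 k F) :
    ∃ n : ℤ, ∀ᶠ i in (𝒰 : Filter I), (P i).ord (f.1 i) = n := by
  obtain ⟨b, hb⟩ := f.2
  obtain ⟨n, -, hn⟩ := exists_const_of_mem 𝒰 (fun i => (P i).ord (f.1 i))
    (Set.finite_Icc (-(b : ℤ)) b) (by
      filter_upwards [hb] with i hi
      exact ⟨hi.ord_ge _, hi.ord_le _⟩)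
  exact ⟨n, hn⟩

theorem UData.ord_eq_of_vs {v : Place U B} {P : ∀ i, Place (k i) (F i)} {G : ℕ}
    (hG : ∀ i, genusFF (k i) (F i) ≤ G) (hv : v.toValuationSubring = d.vs P) {f : Bdd 𝒰 k F}
    {n : ℤ} (h : ∀ᶠ i in (𝒰 : Filter I), (P i).ord (f.1 i) = n) : v.ord (d.mkB f) = n := by
  have hmem : ∀ g : Bdd 𝒰 k F, 0 ≤ v.ord (d.mkB g) ↔
      ∀ᶠ i in (𝒰 : Filter I), 0 ≤ (P i).ord (g.1 i) := by
    intro g
    rw [← mem_vs_iff_ord, hv, d.mem_vs]
    simp only [mem_vs_iff_ord]
  choose t ht1 ht2 using fun i => exists_unif_bound (P i) (hG i)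
  set T : Bdd 𝒰 k F := ⟨t, 4 * G + 3, Eventually.of_forall ht1⟩ with hT
  have hT0 : d.mkB T ≠ 0 := by
    rw [d.neB_iff]
    refine Eventually.of_forall fun i => ?_
    intro h0
    have := ht2 i
    rw [show t i = 0 from h0, Place.ord_zero] at this
    omega
  have hordT : v.ord (d.mkB T) = 1 := by
    have h1 : 0 ≤ v.ord (d.mkB T) := by
      rw [hmem]
      exact Eventually.of_forall fun i => by rw [show (P i).ord (T.1 i) = 1 from ht2 i]; omega
    have h2 : ¬ 0 ≤ v.ord (d.mkB (invB T)) := by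
      rw [hmem]
      intro h3
      obtain ⟨i, hi⟩ := h3.exists
      rw [show (invB T).1 i = (t i)⁻¹ from rfl, (P i).ord_inv, ht2 i] at hi
      omega
    rw [d.mkB_inv, v.ord_inv] at h2
    -- compare with a uniformizer of `v`
    obtain ⟨π, hπ⟩ := d.surjB (unif v)
    have hπ1 : v.ord (d.mkB π) = 1 := by rw [hπ, ord_unif]
    have hπ0 : d.mkB π ≠ 0 := by rw [hπ]; exact unif_ne_zero v
    have h4 : ¬ 0 ≤ v.ord (d.mkB (invB π)) := by
      rw [d.mkB_inv, v.ord_inv, hπ1]; omega
    rw [hmem] at h4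
    have h5 := Ultrafilter.eventually_not.mpr h4
    have h6 : 0 ≤ v.ord (d.mkB (π * invB T)) := by
      rw [hmem]
      filter_upwards [h5, d.neB_iff.mp hπ0] with i h7 h8
      rw [show (invB π).1 i = (π.1 i)⁻¹ from rfl, (P i).ord_inv] at h7
      rw [show (π * invB T).1 i = π.1 i * (t i)⁻¹ from rfl, (P i).ord_mul h8 (by
        intro h0
        have := ht2 i
        rw [inv_eq_zero.mp h0, Place.ord_zero] at this
        omega), (P i).ord_inv, ht2 i]
      omega
    rw [map_mul, d.mkB_inv, v.ord_mul hπ0 (inv_ne_zero hT0), v.ord_inv, hπ1] at h6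
    omega
  rcases eq_or_ne (d.mkB f) 0 with hf0 | hf0
  · rw [hf0, Place.ord_zero]
    rw [d.zeroB_iff] at hf0
    obtain ⟨i, h1, h2⟩ := (h.and hf0).exists
    rw [h2, Place.ord_zero] at h1
    exact h1
  -- `f t^{-n}` is a unit
  have hf0' := d.neB_iff.mp hf0
  have hu : ∀ᶠ i in (𝒰 : Filter I), (P i).ord ((f * zpowB T (-n)).1 i) = 0 := by
    filter_upwards [h, hf0'] with i h1 h2
    rw [show (f * zpowB T (-n)).1 i = f.1 i * (zpowB T (-n)).1 i from rfl, coe_zpowB,
      (P i).ord_mul h2 (zpow_ne_zero _ (by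
        intro h0
        have := ht2 i
        rw [show t i = 0 from h0, Place.ord_zero] at this
        omega)), (P i).ord_zpow, h1, show (P i).ord (T.1 i) = 1 from ht2 i]
    ring
  have h1 : 0 ≤ v.ord (d.mkB (f * zpowB T (-n))) := by
    rw [hmem]
    filter_upwards [hu] with i hi
    rw [hi]
  have h2 : 0 ≤ v.ord (d.mkB (invB (f * zpowB T (-n)))) := by
    rw [hmem]
    filter_upwards [hu] with i hi
    rw [show (invB (f * zpowB T (-n))).1 i = ((f * zpowB T (-n)).1 i)⁻¹ from rfl,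
      (P i).ord_inv, hi, neg_zero]
  rw [d.mkB_inv, v.ord_inv] at h2
  rw [map_mul, d.mkB_zpow, v.ord_mul hf0 (zpow_ne_zero _ hT0), v.ord_zpow, hordT] at h1 h2
  omega

section ip

variable [CharZero U] [∀ i, IsAlgClosed (k i)] {G : ℕ}

theorem UData.exists_ip (hG : ∀ i, genusFF (k i) (F i) ≤ G) (P : ∀ i, Place (k i) (F i)) :
    ∃ v : Place U B, v.toValuationSubring = d.vs P := by
  have := d.isFnField hG
  apply Fermat.Agent.FF.exists_place_of_valuationSubring
  · intro u
    obtain ⟨c, rfl⟩ := d.surj u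
    rw [d.comm, d.mem_vs]
    exact Eventually.of_forall fun i => (P i).algebraMap_mem' (c i)
  · intro htop
    choose f hf1 hf2 hf3 hf4 using fun i => exists_pole_bound (P i) (hG i)
    set x : Bdd 𝒰 k F := ⟨f, G + 1, Eventually.of_forall hf1⟩ with hx
    have h1 : d.mkB x ∈ d.vs P := by rw [htop]; exact ValuationSubring.mem_top _
    rw [d.mem_vs] at h1
    obtain ⟨i, hi⟩ := h1.exists
    rw [mem_vs_iff_ord] at hi
    have := hf2 i
    change 0 ≤ (P i).ord (f i) at hi
    omega

/-- the internal place attached to a family of places -/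
noncomputable def UData.ip (hG : ∀ i, genusFF (k i) (F i) ≤ G) (P : ∀ i, Place (k i) (F i)) :
    Place U B := (d.exists_ip hG P).choose

theorem UData.ip_spec (hG : ∀ i, genusFF (k i) (F i) ≤ G) (P : ∀ i, Place (k i) (F i)) :
    (d.ip hG P).toValuationSubring = d.vs P := (d.exists_ip hG P).choose_spec

theorem UData.ord_ip (hG : ∀ i, genusFF (k i) (F i) ≤ G) (P : ∀ i, Place (k i) (F i))
    {f : Bdd 𝒰 k F} {n : ℤ} :
    (d.ip hG P).ord (d.mkB f) = n ↔ ∀ᶠ i in (𝒰 : Filter I), (P i).ord (f.1 i) = n := by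
  constructor
  · intro h
    obtain ⟨m, hm⟩ := exists_ord_const P f
    have := d.ord_eq_of_vs hG (d.ip_spec hG P) hm
    rw [h] at this
    rwa [this]
  · exact d.ord_eq_of_vs hG (d.ip_spec hG P)

theorem UData.ip_eq_iff (hG : ∀ i, genusFF (k i) (F i) ≤ G) {P Q : ∀ i, Place (k i) (F i)} :
    d.ip hG P = d.ip hG Q ↔ ∀ᶠ i in (𝒰 : Filter I), P i = Q i := by
  constructor
  · intro h
    choose f hf1 hf2 hf3 hf4 using fun i => exists_pole_bound (P i) (hG i)
    set x : Bdd 𝒰 k F := ⟨f, G + 1, Eventually.of_forall hf1⟩ with hx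
    obtain ⟨n, hn⟩ := exists_ord_const P x
    have hn' := (d.ord_ip hG P).mpr hn
    rw [h, d.ord_ip] at hn'
    filter_upwards [hn, hn'] with i h1 h2
    have h3 := hf2 i
    have h4 : (Q i).ord (f i) < 0 := by
      change (P i).ord (f i) = n at h1
      change (Q i).ord (f i) = n at h2
      omega
    exact (hf4 i _ h4).symm
  · intro h
    apply Place.ext
    rw [d.ip_spec, d.ip_spec]
    ext x
    obtain ⟨f, rfl⟩ := d.surjB x
    rw [d.mem_vs, d.mem_vs]
    constructor
    · intro h1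
      filter_upwards [h, h1] with i h2 h3
      rwa [← h2]
    · intro h1
      filter_upwards [h, h1] with i h2 h3
      rwa [h2]

end ip

end Fermat.Agent.Ultra
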