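import Fermat.Agent.Ultra.AllInt

/-! Specialization of divisors; comparison of Riemann-Roch spaces and genera. -/

set_option autoImplicit false

open Filter AlgebraicCurve WithZero Module Polynomial

namespace Fermat.Agent.Ultra

open Fermat.Agent.RRC

theorem div_eq_iff_mem {K L : Type*} [Field K] [Field L] [Algebra K L] [HasPrincipalDivisors K L]
    {g : L} (hg : g ≠ 0) {E : Divisor K L} : div K g = E ↔
      g ∈ riemannRochSpace (-E) ∧ g⁻¹ ∈ riemannRochSpace E := by
  rw [mem_L_iff hg, mem_L_iff (inv_ne_zero hg), RRC.div_inv, le_antisymm_iff (a := div K g)]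
  constructor
  · rintro ⟨h1, h2⟩
    exact ⟨by rw [← sub_eq_add_neg]; exact sub_nonneg.mpr h2,
      by rw [neg_add_eq_sub]; exact sub_nonneg.mpr h1⟩
  · rintro ⟨h1, h2⟩
    rw [← sub_eq_add_neg] at h1
    rw [neg_add_eq_sub] at h2
    exact ⟨sub_nonneg.mp h2, sub_nonneg.mp h1⟩

variable {I : Type*} {𝒰 : Ultrafilter I} {k : I → Type*} {F : I → Type*}
  [∀ i, Field (k i)] [∀ i, Field (F i)] [∀ i, Algebra (k i) (F i)] [∀ i, RRC.FF (k i) (F i)]
  {U B : Type*} [Field U] [Field B] [Algebra U B] (d : UData 𝒰 k F U B)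
  [CharZero U] [∀ i, IsAlgClosed (k i)] {G : ℕ}

/-- representing families of places -/
noncomputable def UData.rep (hG : ∀ i, genusFF (k i) (F i) ≤ G) (v : Place U B) :
    ∀ i, Place (k i) (F i) := (d.exists_ip_eq hG v).choose

theorem UData.ip_rep (hG : ∀ i, genusFF (k i) (F i) ≤ G) (v : Place U B) :
    d.ip hG (d.rep hG v) = v := (d.exists_ip_eq hG v).choose_spec

theorem UData.rep_ip (hG : ∀ i, genusFF (k i) (F i) ≤ G) (P : ∀ i, Place (k i) (F i)) :
    ∀ᶠ i in (𝒰 : Filter I), d.rep hG (d.ip hG P) i = P i :=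
  (d.ip_eq_iff hG).mp (d.ip_rep hG _)

theorem UData.ord_rep (hG : ∀ i, genusFF (k i) (F i) ≤ G) (v : Place U B) {f : Bdd 𝒰 k F} {n : ℤ} :
    v.ord (d.mkB f) = n ↔ ∀ᶠ i in (𝒰 : Filter I), (d.rep hG v i).ord (f.1 i) = n := by
  rw [← d.ord_ip hG, d.ip_rep]

/-- specialization of divisors -/
noncomputable def UData.spec (hG : ∀ i, genusFF (k i) (F i) ≤ G) (i : I) :
    Divisor U B →+ Divisor (k i) (F i) :=
  Finsupp.mapDomain.addMonoidHom fun v => d.rep hG v i

theorem UData.spec_single (hG : ∀ i, genusFF (k i) (F i) ≤ G) (i : I) (v : Place U B) (n : ℤ) :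
    d.spec hG i (Finsupp.single v n) = Finsupp.single (d.rep hG v i) n :=
  Finsupp.mapDomain_single

theorem UData.degree_spec (hG : ∀ i, genusFF (k i) (F i) ≤ G) [RatPlaces U B] (i : I)
    (D : Divisor U B) : Divisor.degree (d.spec hG i D) = Divisor.degree D := by
  induction D using Finsupp.induction with
  | zero => simp
  | single_add v n D _ _ ih =>
    rw [map_add, map_add, map_add, ih, d.spec_single, degree_single', degree_single']

theorem UData.spec_apply (hG : ∀ i, genusFF (k i) (F i) ≤ G) (D : Divisor U B) (v : Place U B) :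
    ∀ᶠ i in (𝒰 : Filter I), d.spec hG i D (d.rep hG v i) = D v := by
  classical
  induction D using Finsupp.induction with
  | zero => exact Eventually.of_forall fun i => by simp
  | single_add w n D _ _ ih =>
    have h1 : ∀ᶠ i in (𝒰 : Filter I), (d.rep hG w i = d.rep hG v i ↔ w = v) := by
      by_cases h : w = v
      · subst h
        exact Eventually.of_forall fun i => by simp
      · have h2 : ¬ ∀ᶠ i in (𝒰 : Filter I), d.rep hG w i = d.rep hG v i := by
          intro h3
          apply h
          rw [← d.ip_rep hG w, ← d.ip_rep hG v, d.ip_eq_iff hG]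
          exact h3
        filter_upwards [Ultrafilter.eventually_not.mpr h2] with i hi
        simp [hi, h]
    filter_upwards [ih, h1] with i h2 h3
    rw [map_add, Finsupp.add_apply, Finsupp.add_apply, h2, d.spec_single, Finsupp.single_apply,
      Finsupp.single_apply]
    simp only [h3]

theorem UData.spec_nonneg (hG : ∀ i, genusFF (k i) (F i) ≤ G) {D : Divisor U B} (h : 0 ≤ D)
    (i : I) : 0 ≤ d.spec hG i D := by
  classical
  have : D = ∑ v ∈ D.support, Finsupp.single v (D v) := (Finsupp.sum_single D).symm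
  rw [this, map_sum]
  refine Finset.sum_nonneg fun v _ => ?_
  rw [d.spec_single]
  intro u
  rw [Finsupp.single_apply]
  split_ifs
  · exact h v
  · simp

theorem UData.mem_L_spec_iff (hG : ∀ i, genusFF (k i) (F i) ≤ G) {f : Bdd 𝒰 k F}
    {D : Divisor U B} : d.mkB f ∈ riemannRochSpace D ↔
      ∀ᶠ i in (𝒰 : Filter I), f.1 i ∈ riemannRochSpace (d.spec hG i D) := by
  classical
  constructor
  · intro h
    by_contra hcon
    have hcon' := Ultrafilter.eventually_not.mpr hcon
    have hex : ∀ i, ∃ P : Place (k i) (F i), (f.1 i ∉ riemannRochSpace (d.spec hG i D) →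
        f.1 i ≠ 0 ∧ P.ord (f.1 i) < -(d.spec hG i D P)) := by
      intro i
      by_cases hi : f.1 i ∈ riemannRochSpace (d.spec hG i D)
      · exact ⟨Classical.choice instNonemptyPlace, fun h' => absurd hi h'⟩
      · have hi' := hi
        rw [mem_riemannRochSpace_iff] at hi
        push Not at hi
        obtain ⟨P, hP1, hP2⟩ := hi
        exact ⟨P, fun _ => ⟨hP1, by omega⟩⟩
    choose P hP using hex
    set v := d.ip hG P with hv
    obtain ⟨n, hn⟩ := exists_ord_const P f
    have hn' : v.ord (d.mkB f) = n := (d.ord_ip hG P).mpr hn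
    have hne : d.mkB f ≠ 0 := by
      rw [d.neB_iff]
      filter_upwards [hcon'] with i hi using (hP i hi).1
    have h1 := (mem_riemannRochSpace_iff.mp h v).resolve_left hne
    obtain ⟨i, h2, h3, h4, h5⟩ :=
      (hcon'.and (hn.and ((d.rep_ip hG P).and (d.spec_apply hG D v)))).exists
    have h6 := (hP i h2).2
    rw [← hv] at h4
    rw [h4] at h5
    rw [h3, h5] at h6
    omega
  · intro h
    rw [mem_riemannRochSpace_iff]
    intro v
    by_cases hne : d.mkB f = 0
    · exact Or.inl hne
    right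
    obtain ⟨n, hn⟩ := exists_ord_const (d.rep hG v) f
    rw [(d.ord_rep hG v).mpr hn]
    rw [← Ne, d.neB_iff] at hne
    obtain ⟨i, h1, h2, h3, h4⟩ := (h.and (hn.and ((d.spec_apply hG D v).and hne))).exists
    have h5 := (mem_riemannRochSpace_iff.mp h1 (d.rep hG v i)).resolve_left h4
    rw [h2, h3] at h5
    exact h5

theorem UData.bdd_of_mem (hG : ∀ i, genusFF (k i) (F i) ≤ G) [RatPlaces U B] {f : ∀ i, F i}
    {D : Divisor U B} (h : ∀ᶠ i in (𝒰 : Filter I), f i ∈ riemannRochSpace (d.spec hG i D)) :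
    f ∈ Bdd 𝒰 k F := by
  refine ⟨(Divisor.degree (D ⊔ 0)).toNat, ?_⟩
  filter_upwards [h] with i hi
  refine ⟨d.spec hG i (D ⊔ 0), d.spec_nonneg hG le_sup_right i, ?_, ?_⟩
  · rw [d.degree_spec]
    exact Int.self_le_toNat _
  · refine riemannRochSpace_mono ?_ hi
    rw [← sub_nonneg, ← map_sub]
    exact d.spec_nonneg hG (sub_nonneg.mpr le_sup_left) i

/-- comparison of principal divisors -/
theorem UData.div_eq_iff (hG : ∀ i, genusFF (k i) (F i) ≤ G) [HasPrincipalDivisors U B]
    {f : Bdd 𝒰 k F} (hf : d.mkB f ≠ 0) {D : Divisor U B} :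
    div U (d.mkB f) = D ↔ ∀ᶠ i in (𝒰 : Filter I), div (k i) (f.1 i) = d.spec hG i D := by
  have hf' := d.neB_iff.mp hf
  rw [div_eq_iff_mem hf, ← d.mkB_inv, d.mem_L_spec_iff hG, d.mem_L_spec_iff hG, ← eventually_and]
  apply eventually_congr
  filter_upwards [hf'] with i hi
  rw [map_neg]
  exact (div_eq_iff_mem hi).symm

/-- comparison of dimensions -/
theorem UData.finrank_L_eq (hG : ∀ i, genusFF (k i) (F i) ≤ G) [RatPlaces U B] {D : Divisor U B}
    {n : ℕ} (h : ∀ᶠ i in (𝒰 : Filter I), finrank (k i) (riemannRochSpace (d.spec hG i D)) = n) :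
    finrank U (riemannRochSpace D) = n := by
  classical
  -- choose bases
  have hb : ∀ i, ∃ b : Fin n → F i, (finrank (k i) (riemannRochSpace (d.spec hG i D)) = n →
      (∀ j, b j ∈ riemannRochSpace (d.spec hG i D)) ∧ LinearIndependent (k i) b ∧
      ∀ x ∈ riemannRochSpace (d.spec hG i D), ∃ c : Fin n → k i, x = ∑ j, c j • b j) := by
    intro i
    by_cases hi : finrank (k i) (riemannRochSpace (d.spec hG i D)) = n
    · let b := Module.finBasisOfFinrankEq (k i) (riemannRochSpace (d.spec hG i D)) hi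
      refine ⟨fun j => (b j : F i), fun _ => ⟨fun j => (b j).2, ?_, ?_⟩⟩
      · exact b.linearIndependent.map' (Submodule.subtype _) (Submodule.ker_subtype _)
      · intro x hx
        refine ⟨fun j => b.repr ⟨x, hx⟩ j, ?_⟩
        have := b.sum_repr ⟨x, hx⟩
        have h2 := congrArg Subtype.val this
        simp only [AddSubmonoidClass.coe_finsetSum, Submodule.coe_smul] at h2
        exact h2.symm
    · exact ⟨0, fun h' => absurd h' hi⟩
  choose b hb using hb
  have hbmem : ∀ j, ∀ᶠ i in (𝒰 : Filter I), b i j ∈ riemannRochSpace (d.spec hG i D) := by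
    intro j
    filter_upwards [h] with i hi using (hb i hi).1 j
  set β : Fin n → Bdd 𝒰 k F := fun j => ⟨fun i => b i j, d.bdd_of_mem hG (hbmem j)⟩ with hβ
  have hβmem : ∀ j, d.mkB (β j) ∈ riemannRochSpace D := fun j => (d.mem_L_spec_iff hG).mpr (hbmem j)
  have hli : LinearIndependent U (fun j => (⟨d.mkB (β j), hβmem j⟩ : riemannRochSpace D)) := by
    rw [Fintype.linearIndependent_iff]
    intro c hc
    choose c' hc' using fun j => d.surj (c j)
    have h1 := congrArg Subtype.val hc
    simp only [AddSubmonoidClass.coe_finsetSum, Submodule.coe_smul, ZeroMemClass.coe_zero] at h1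
    have h2 : ∀ j, c j • d.mkB (β j) = d.mkB (constHom 𝒰 k F (c' j) * β j) := by
      intro j
      rw [map_mul, ← d.comm, hc', Algebra.smul_def]
    rw [Finset.sum_congr rfl fun j _ => h2 j, ← map_sum, d.zeroB_iff] at h1
    have h3 : ∀ᶠ i in (𝒰 : Filter I), ∀ j, c' j i = 0 := by
      filter_upwards [h1, h] with i h4 h5
      rw [AddSubmonoidClass.coe_finsetSum, Finset.sum_apply] at h4
      have h6 := (Fintype.linearIndependent_iff.mp (hb i h5).2.1) (fun j => c' j i) (by
        rw [← h4]
        refine Finset.sum_congr rfl fun j _ => ?_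
        rw [Algebra.smul_def]
        rfl)
      exact h6
    intro j
    rw [← hc', d.zero_iff]
    filter_upwards [h3] with i hi using hi j
  have hspan : ⊤ ≤ Submodule.span U
      (Set.range (fun j => (⟨d.mkB (β j), hβmem j⟩ : riemannRochSpace D))) := by
    rintro ⟨x, hx⟩ -
    obtain ⟨f, rfl⟩ := d.surjB x
    have hf := (d.mem_L_spec_iff hG).mp hx
    have hc : ∀ i, ∃ c : Fin n → k i,
        (finrank (k i) (riemannRochSpace (d.spec hG i D)) = n →
          f.1 i ∈ riemannRochSpace (d.spec hG i D) → f.1 i = ∑ j, c j • b i j) := by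
      intro i
      by_cases hi : finrank (k i) (riemannRochSpace (d.spec hG i D)) = n ∧
          f.1 i ∈ riemannRochSpace (d.spec hG i D)
      · obtain ⟨c, hc⟩ := (hb i hi.1).2.2 _ hi.2
        exact ⟨c, fun _ _ => hc⟩
      · exact ⟨0, fun h1 h2 => absurd ⟨h1, h2⟩ hi⟩
    choose c hc using hc
    rw [Submodule.mem_span_range_iff_exists_fun]
    refine ⟨fun j => d.mkU (fun i => c i j), ?_⟩
    apply Subtype.ext
    simp only [AddSubmonoidClass.coe_finsetSum, Submodule.coe_smul]
    have h2 : ∀ j, d.mkU (fun i => c i j) • d.mkB (β j) =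
        d.mkB (constHom 𝒰 k F (fun i => c i j) * β j) := by
      intro j
      rw [map_mul, ← d.comm, Algebra.smul_def]
    rw [Finset.sum_congr rfl fun j _ => h2 j, ← map_sum, d.eqB_iff]
    filter_upwards [h, hf] with i h3 h4
    rw [AddSubmonoidClass.coe_finsetSum, Finset.sum_apply, hc i h3 h4]
    refine Finset.sum_congr rfl fun j _ => ?_
    rw [Algebra.smul_def]
    rfl
  have := finrank_eq_card_basis (Basis.mk hli hspan)
  rw [this, Fintype.card_fin]

include d in
/-- comparison of genera -/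
theorem UData.genus_eq (hG : ∀ i, genusFF (k i) (F i) ≤ G) [RRC.FF U B] :
    ∀ᶠ i in (𝒰 : Filter I), genusFF (k i) (F i) = genusFF U B := by
  obtain ⟨g, hg⟩ := exists_const_of_mem 𝒰 (fun i => genusFF (k i) (F i)) (Set.finite_Icc 0 G)
    (Eventually.of_forall fun i => ⟨Nat.zero_le _, hG i⟩)
  obtain ⟨v⟩ := instNonemptyPlace (K := U) (F := B)
  set N : ℕ := 2 * G + 2 * genusFF U B with hN
  set D : Divisor U B := Finsupp.single v (N : ℤ) with hD
  have hdeg : Divisor.degree D = N := by rw [hD, degree_single']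
  have h1 : ∀ᶠ i in (𝒰 : Filter I),
      finrank (k i) (riemannRochSpace (d.spec hG i D)) = N + 1 - g := by
    filter_upwards [hg.2] with i hi
    have h2 := hG i
    have h3 := finrank_L_of_large (D := d.spec hG i D) (by
      rw [d.degree_spec, hdeg]; omega)
    rw [d.degree_spec, hdeg] at h3
    omega
  have h2 := d.finrank_L_eq hG h1
  have h3 := finrank_L_of_large (D := D) (by rw [hdeg]; omega)
  rw [hdeg, h2] at h3
  have h4 : g ≤ G := hg.1.2
  filter_upwards [hg.2] with i hi
  omega

end Fermat.Agent.Ultra
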